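/-
S55 (Poitou-Tate), block HP: open subgroups of `GQ` are number fields; the pair of number fields
attached to a character `x ∈ Z1 Lall V (trivZ p GQ)` of an open subgroup `V`.
-/
import Fermat.Agent.PT.B.Galois
import Fermat.Agent.PT.B.CycDefs
import Fermat.Agent.PT.Hens.Restrict

set_option autoImplicit false

noncomputable section

namespace Fermat.Agent.PT

/-- An open subgroup is the fixing subgroup of a number field.
Proof: `V ⊇ U = F.fixingSubgroup`, `F/ℚ` finite.  `K := fixedField V ≤ fixedField U = F`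
(`InfiniteGalois.fixedField_fixingSubgroup`), so `K` is finite dimensional.  `V` is open for the Krull
topology (`IntermediateField.fixingSubgroup_isOpen`, `Subgroup.isOpen_mono`), hence closed
(`Subgroup.isClosed_of_isOpen`), so `K.fixingSubgroup = V`
(`InfiniteGalois.fixingSubgroup_fixedField ⟨V, _⟩`). -/
theorem exists_field_of_isOpen {V : Subgroup GQ} (hV : Lall.IsOpen V) :
    ∃ K : IntermediateField ℚ Qbar, FiniteDimensional ℚ K ∧ K.fixingSubgroup = V := by
  obtain ⟨U, ⟨-, F1, hF1, rfl⟩, hle⟩ := hV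
  have hopen : IsOpen (V : Set GQ) :=
    Subgroup.isOpen_mono hle (IntermediateField.fixingSubgroup_isOpen F1)
  have hclosed : IsClosed (V : Set GQ) := Subgroup.isClosed_of_isOpen _ hopen
  have hfix : (IntermediateField.fixedField V).fixingSubgroup = V :=
    InfiniteGalois.fixingSubgroup_fixedField ⟨V, hclosed⟩
  have hFle : IntermediateField.fixedField V ≤ F1 := by
    rw [← InfiniteGalois.fixedField_fixingSubgroup F1]
    exact IntermediateField.fixedField_antitone hle
  exact ⟨IntermediateField.fixedField V,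
    FiniteDimensional.of_injective (IntermediateField.inclusion hFle).toLinearMap
      (IntermediateField.inclusion_injective hFle), hfix⟩

theorem fixingSubgroup_fixedField_of_isOpen {V : Subgroup GQ} (hV : Lall.IsOpen V) :
    (IntermediateField.fixedField V).fixingSubgroup = V := by
  obtain ⟨U, ⟨-, F1, hF1, rfl⟩, hle⟩ := hV
  have hopen : IsOpen (V : Set GQ) :=
    Subgroup.isOpen_mono hle (IntermediateField.fixingSubgroup_isOpen F1)
  have hclosed : IsClosed (V : Set GQ) := Subgroup.isClosed_of_isOpen _ hopen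
  exact InfiniteGalois.fixingSubgroup_fixedField ⟨V, hclosed⟩

theorem isOpen_of_le {V V' : Subgroup GQ} (hV : Lall.IsOpen V) (h : V ≤ V') : Lall.IsOpen V' := by
  obtain ⟨U, hU, hUV⟩ := hV
  exact ⟨U, hU, hUV.trans h⟩

theorem isOpen_inf {V V' : Subgroup GQ} (hV : Lall.IsOpen V) (hV' : Lall.IsOpen V') :
    Lall.IsOpen (V ⊓ V') := by
  obtain ⟨U, hU, hUV⟩ := hV
  obtain ⟨U', hU', hUV'⟩ := hV'
  obtain ⟨W, hW, h1, h2⟩ := Lall.directed' U hU U' hU'
  exact ⟨W, hW, le_inf (h1.trans hUV) (h2.trans hUV')⟩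

variable {p : ℕ} [Fact p.Prime]

/-- The kernel of a (smooth) character of an open subgroup is open:
if `U` is a level of `x` then `x 1 (u * g) = x 1 g`... use `mem_kerOf_iff`, `x 1 (1 * u) = x 1 1 = 0`
for `u ∈ U` (smoothness with `g₀ = g₁ = 1`, `u₀ = 1`, `u₁ = u`), so `V ⊓ U ≤ kerOf V x`. -/
theorem isOpen_kerOf {V : Subgroup GQ} (hV : Lall.IsOpen V) {x : GQ → GQ → ZMod p}
    (hx : x ∈ Z1 Lall V (trivZ p GQ)) : Lall.IsOpen (kerOf V x) := by
  obtain ⟨U, hU, hs⟩ := smooth_x_one hx
  refine isOpen_of_le (isOpen_inf hV ⟨U, hU, le_rfl⟩) ?_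
  rintro u ⟨huV, huU⟩
  rw [mem_kerOf_iff hx]
  refine ⟨huV, ?_⟩
  have h1 : x 1 (1 * u) = x 1 1 := hs 1 u huU
  rwa [one_mul, x_one_one hx] at h1

/-- The cyclic extension of number fields `K'/K` of degree `p` attached to a nontrivial character
of an open subgroup `V`.
Proof: `K` from `exists_field_of_isOpen hV`, `K₂` from `exists_field_of_isOpen (isOpen_kerOf hV hx)`,
`K ≤ K₂` (as `kerOf V x ≤ V`; `IntermediateField.fixingSubgroup` is an order anti-isomorphism onto
closed subgroups / use `fixedField`), `K' := IntermediateField.extendScalars (h : K ≤ K₂)`.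
`Vof K = K.fixingSubgroup` is `Vof_intermediateField`; `Vof K' = K₂.fixingSubgroup` by unfolding.
Degree: `finrank K K' = (kerOf V x).relIndex V = p` (`relIndex_kerOf`;
`IntermediateField.finrank_eq_fixingSubgroup_index` for `K`, `K₂` over `ℚ` + tower law, or
`resHom`).  Galois: `K'/K` is separable (char 0) and normal because `kerOf V x` is normal in `V`
(`kerOf_conj`): every `g ∈ Vof K` maps `K₂` into itself. -/
theorem exists_fields_of_char {V : Subgroup GQ} (hV : Lall.IsOpen V) {x : GQ → GQ → ZMod p}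
    (hx : x ∈ Z1 Lall V (trivZ p GQ)) (hne : kerOf V x ≠ V) :
    ∃ (K : IntermediateField ℚ Qbar) (K' : IntermediateField K Qbar),
      FiniteDimensional ℚ K ∧ FiniteDimensional K K' ∧ IsGalois K K' ∧
      Module.finrank K K' = p ∧ Vof K = V ∧ Vof K' = kerOf V x := by
  have hp : p.Prime := Fact.out
  obtain ⟨K, hKfd, hK⟩ := exists_field_of_isOpen hV
  obtain ⟨K₂, hK₂fd, hK₂⟩ := exists_field_of_isOpen (isOpen_kerOf hV hx)
  have hle : K ≤ K₂ := by
    rw [← InfiniteGalois.fixedField_fixingSubgroup K, ← InfiniteGalois.fixedField_fixingSubgroup K₂,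
      hK, hK₂]
    exact IntermediateField.fixedField_antitone (kerOf_le V x)
  have hVK : Vof K = V := by rw [Vof_intermediateField, hK]
  set K' : IntermediateField K Qbar := IntermediateField.extendScalars hle with hK'
  have hVK' : Vof K' = kerOf V x := by
    rw [← hK₂]
    ext g
    rw [mem_Vof, IntermediateField.mem_fixingSubgroup_iff]
    exact ⟨fun h y hy => h ⟨y, hy⟩, fun h y => h y y.2⟩
  -- the dictionary between `Vof K` and `Gal(Qbar/K)`
  have hmem : ∀ g : Vof K, VofEquiv K g ∈ K'.fixingSubgroup ↔ g.1 ∈ kerOf V x := by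
    intro g
    rw [← hK₂, IntermediateField.mem_fixingSubgroup_iff, IntermediateField.mem_fixingSubgroup_iff]
    exact Iff.rfl
  have hnormal : K'.fixingSubgroup.Normal := by
    refine ⟨fun h hh t => ?_⟩
    obtain ⟨w, rfl⟩ := (VofEquiv K).surjective h
    obtain ⟨g, rfl⟩ := (VofEquiv K).surjective t
    rw [← map_inv, ← map_mul, ← map_mul, hmem]
    rw [hmem] at hh
    exact kerOf_conj hx (hVK ▸ g.2) hh
  have hgal : IsGalois K K' := (InfiniteGalois.normal_iff_isGalois K').mp hnormal
  have hcomap : K'.fixingSubgroup.comap (VofEquiv K).toMonoidHom = (kerOf V x).subgroupOf (Vof K) := by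
    ext g
    rw [Subgroup.mem_comap, Subgroup.mem_subgroupOf]
    exact hmem g
  have hrank : Module.finrank K K' = p := by
    rw [IntermediateField.finrank_eq_fixingSubgroup_index,
      ← Subgroup.index_comap_of_surjective _ (f := (VofEquiv K).toMonoidHom) (VofEquiv K).surjective,
      hcomap, ← Subgroup.relIndex, hVK]
    exact relIndex_kerOf hx hne
  have hfd : FiniteDimensional K K' :=
    Module.finite_of_finrank_pos (by rw [hrank]; exact hp.pos)
  exact ⟨K, K', hKfd, hfd, hgal, hrank, hVK, hVK'⟩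

end Fermat.Agent.PT

end
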