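/-
S55 (Poitou-Tate), block HP: the Hasse norm theorem for cyclic extensions of degree `p` of number
fields containing `μ_p`, in the language of subgroups of `GQ`.
-/
import Fermat.Agent.PT.HP.Fields
import Fermat.Agent.PT.Hens.NormBridge
import Fermat.Agent.PT.Arith.HNTGen

set_option autoImplicit false

open NumberField IsDedekindDomain Fermat.Agent.CFT

noncomputable section

namespace Fermat.Agent.PT

variable {p : ℕ} [Fact p.Prime]

/-- **Hasse norm theorem, group form.**  `V` open, `μ_p ⊆ Qbar^V`, `x` a character of `V` with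
`x 1 σ = 1`; `b ∈ (Qbar^V)^×` which is a local norm at every finite place where the character does not
split, is a global norm.

Proof.  `exists_fields_of_char` gives `K`, `K'`; instances `NumberField K`
(`numberField_of_finiteDimensional`), `NumberField K'` (`numberField_of_finiteDimensional'`).
`ζ : K` := `⟨zetaP p, _⟩` (`le_G1_iff`, `K = fixedField V`), primitive.  `b = algebraMap K Qbar b₀`,
`b₀ : Kˣ` (as `b ∈ fixedField V = K`: `InfiniteGalois.fixedField_fixingSubgroup`).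
For `v : Pl K` take `𝒜, h` with `plOf K 𝒜 h = v` (`exists_plOf_eq`).  If `V ⊓ Dec 𝒜 ≤ kerOf V x`
then `Split K' v` (`split_plOf_iff`) and `Arith.NL_eq_top_of_split`.  Otherwise `hloc` and
`mem_norm_sup_LP_iff` give `b₀ ∈ Arith.NL K K' p ζ v` (`Arith.NL` unfolds to `NR ⊔ LP`,
`kh K' 𝒜 = fixedField (Vof K' ⊓ Dec 𝒜)`).  `Arith.hasseNormGen` gives `b₀ = N z`;
`algebraMap_norm_eq_prod` with `σ` (`σ ∉ Vof K'` since `x 1 σ = 1 ≠ 0`, `mem_kerOf_iff`) gives the claim
with `β = algebraMap K' Qbar z`. -/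
theorem hnt_group (hp2 : p ≠ 2) {V : Subgroup GQ} (hV : Lall.IsOpen V) (hV1 : V ≤ G1 p)
    {x : GQ → GQ → ZMod p} (hx : x ∈ Z1 Lall V (trivZ p GQ)) {σ : GQ} (hσ : σ ∈ V)
    (hσ1 : x 1 σ = 1) {b : Qbar} (hb0 : b ≠ 0) (hb : b ∈ IntermediateField.fixedField V)
    (hloc : ∀ 𝒜 : Place, 𝒜.IsFin → ¬ (V ⊓ Dec 𝒜 ≤ kerOf V x) →
      ∃ τ ∈ V ⊓ Dec 𝒜, τ ∉ kerOf V x ∧
        ∃ β ∈ IntermediateField.fixedField (kerOf V x ⊓ Dec 𝒜),
          ∏ i ∈ Finset.range p, (τ ^ i) β = b) :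
    ∃ β ∈ IntermediateField.fixedField (kerOf V x), ∏ i ∈ Finset.range p, (σ ^ i) β = b := by
  have hσker : σ ∉ kerOf V x := by
    intro h
    have h1 := ((mem_kerOf_iff hx).mp h).2
    rw [hσ1] at h1
    exact one_ne_zero h1
  have hne : kerOf V x ≠ V := fun h => hσker (by rw [h]; exact hσ)
  obtain ⟨K, K', hK, hK', hgal, hdeg, hVK, hVK'⟩ := exists_fields_of_char hV hx hne
  have : NumberField K := numberField_of_finiteDimensional K
  have : NumberField K' := numberField_of_finiteDimensional' K'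
  have hKV : IntermediateField.fixedField V = K := by
    rw [← hVK, Vof_intermediateField, InfiniteGalois.fixedField_fixingSubgroup]
  have hζmem : (zetaP p : Qbar) ∈ K := by
    rw [← hKV, IntermediateField.mem_fixedField_iff]
    exact (le_G1_iff p).mp hV1
  have hbK : b ∈ K := hKV ▸ hb
  set ζ : K := ⟨(zetaP p : Qbar), hζmem⟩ with hζdef
  have hζ : IsPrimitiveRoot ζ p := by
    have h1 : IsPrimitiveRoot ((zetaP p : Qbarˣ) : Qbar) p :=
      IsPrimitiveRoot.coe_units_iff.mpr (zetaP_spec p)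
    exact IsPrimitiveRoot.of_map_of_injective (f := algebraMap K Qbar)
      (hf := (algebraMap K Qbar).injective) h1
  set b₁ : K := ⟨b, hbK⟩ with hb₁
  have hb₁0 : b₁ ≠ 0 := by
    intro h
    exact hb0 (congrArg (algebraMap K Qbar) h)
  set b₀ : Kˣ := Units.mk0 b₁ hb₁0 with hb₀
  have hb₀b : algebraMap K Qbar (b₀ : K) = b := rfl
  have hall : ∀ v : Pl K, b₀ ∈ Arith.NL K K' p ζ v := by
    intro v
    obtain ⟨𝒜, h, rfl⟩ := exists_plOf_eq v
    by_cases hs : V ⊓ Dec 𝒜 ≤ kerOf V x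
    · have hsp : Split K' (plOf K 𝒜 h) := by
        rw [split_plOf_iff, hVK, hVK']
        exact hs
      rw [Arith.NL_eq_top_of_split p ζ _ hsp]
      trivial
    · obtain ⟨τ, hτ, hτk, β, hβ, hprod⟩ := hloc 𝒜 h hs
      have hτ' : τ ∈ Vof K ⊓ Dec 𝒜 := by rw [hVK]; exact hτ
      have hτk' : τ ∉ Vof K' := by rw [hVK']; exact hτk
      have hβ' : β ∈ kh K' 𝒜 := by
        unfold kh
        rw [hVK']
        exact hβ
      exact (mem_norm_sup_LP_iff h hζ hdeg hτ' hτk' b₀).mpr ⟨β, hβ', hprod⟩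
  obtain ⟨z, hz⟩ := Arith.hasseNormGen p hp2 ζ hζ hdeg b₀ hall
  refine ⟨algebraMap K' Qbar (z : K'), ?_, ?_⟩
  · rw [IntermediateField.mem_fixedField_iff]
    intro g hg
    rw [← hVK'] at hg
    exact hg _
  · have hσ' : σ ∈ Vof K := by rw [hVK]; exact hσ
    have hσk' : σ ∉ Vof K' := by rw [hVK']; exact hσker
    rw [← algebraMap_norm_eq_prod hdeg hσ' hσk' (z : K'), ← hb₀b, ← hz]
    rfl

end Fermat.Agent.PT

end
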