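/-
S55 (Poitou-Tate), block HP: the Hasse principle for `H²(G_k, μ_p)`, `k` a number field, `p` odd.
-/
import Fermat.Agent.PT.HP.HNT
import Fermat.Agent.PT.B.Cyclic
import Fermat.Agent.PT.B.Tower
import Fermat.Agent.PT.Global.Interface

set_option autoImplicit false

noncomputable section

namespace Fermat.Agent.PT

variable {p : ℕ} [Fact p.Prime]

/-- One step of the tower.
Proof.  `K := kummerQbar p`.  (CS3) `K.exists_theta_of_mem_B2_ker hx hne hz hker` gives `b` fixed by `V`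
with `z - K.theta b x ∈ B2 Lall V cyc`.  It suffices to show `K.theta b x ∈ B2 Lall V cyc`.
`σ` from `exists_sigma hx hne`.  By (CS1) `K.theta_norm_mem_B2` it suffices to find `c` fixed by
`kerOf V x` with `normOf multRep p σ c = b`; translate with `multRep_fixed_iff`, `toMul_sum_multRep`
to the conclusion of `hnt_group` for `toMul b`.
Local hypothesis: let `𝒜` be finite with `¬ V ⊓ Dec 𝒜 ≤ kerOf V x`.  `W := V ⊓ Dec 𝒜`.
`x ∈ Z1 Lall W triv` (`Z1_le_of_le`), `kerOf W x = W ⊓ kerOf V x` (`kerOf_of_le`) `≠ W`;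
`K.theta b x = z - (z - K.theta b x) ∈ B2 Lall W cyc` (`hloc`, `B2_le_of_le`).  `τ` from
`exists_sigma` for `W`; (CS2) `K.exists_norm_of_theta_mem_B2` over `W` gives `c` fixed by
`kerOf W x = kerOf V x ⊓ Dec 𝒜` (as sets of fixed vectors) with `normOf multRep p τ c = b`. -/
theorem hp_step (hp2 : p ≠ 2) {V : Subgroup GQ} (hV : Lall.IsOpen V) (hV1 : V ≤ G1 p)
    {x : GQ → GQ → ZMod p} (hx : x ∈ Z1 Lall V (trivZ p GQ)) (hne : kerOf V x ≠ V)
    {z : GQ → GQ → GQ → ZMod p} (hz : z ∈ Z2 Lall V (cycRep p))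
    (hloc : ∀ 𝒜 : Place, 𝒜.IsFin → z ∈ B2 Lall (V ⊓ Dec 𝒜) (cycRep p))
    (hker : z ∈ B2 Lall (kerOf V x) (cycRep p)) : z ∈ B2 Lall V (cycRep p) := by
  have K := kummerQbar p
  have hp : p.Prime := Fact.out
  obtain ⟨b, hb, hzb⟩ := K.exists_theta_of_mem_B2_ker hx hne hz hker
  suffices hθ : K.theta b x ∈ B2 Lall V (cycRep p) by
    have := add_mem hzb hθ
    simpa using this
  obtain ⟨σ, hσ, hσ1⟩ := exists_sigma hx hne
  have hbfix : ((Additive.toMul b : Qbarˣ) : Qbar) ∈ IntermediateField.fixedField V :=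
    multRep_fixed_iff.1 hb
  obtain ⟨β, hβ, hprod⟩ := hnt_group hp2 hV hV1 hx hσ hσ1 (Additive.toMul b : Qbarˣ).ne_zero hbfix
    (by
      intro 𝒜 h𝒜 hnot
      have hxW : x ∈ Z1 Lall (V ⊓ Dec 𝒜) (trivZ p GQ) := Z1_le_of_le inf_le_left hx
      have hkW : kerOf (V ⊓ Dec 𝒜) x = (V ⊓ Dec 𝒜) ⊓ kerOf V x := kerOf_of_le inf_le_left
      have hneW : kerOf (V ⊓ Dec 𝒜) x ≠ V ⊓ Dec 𝒜 := by
        rw [hkW]
        intro h
        exact hnot (inf_eq_left.1 h)
      have hθW : K.theta b x ∈ B2 Lall (V ⊓ Dec 𝒜) (cycRep p) := by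
        have h1 := hloc 𝒜 h𝒜
        have h2 := B2_le_of_le (inf_le_left : V ⊓ Dec 𝒜 ≤ V) hzb
        have := sub_mem h1 h2
        simpa using this
      obtain ⟨τ, hτ, hτ1⟩ := exists_sigma hxW hneW
      obtain ⟨c, hc, hcn⟩ := K.exists_norm_of_theta_mem_B2 hxW hτ hτ1
        (fun v hv => hb v hv.1) hθW
      refine ⟨τ, hτ, ?_, ((Additive.toMul c : Qbarˣ) : Qbar), ?_, ?_⟩
      · intro hk
        have := ((mem_kerOf_iff hx).1 hk).2
        rw [hτ1] at this
        exact one_ne_zero this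
      · refine multRep_fixed_iff.1 fun w hw => hc w ?_
        rw [hkW]
        exact ⟨⟨kerOf_le V x hw.1, hw.2⟩, hw.1⟩
      · rw [← toMul_sum_multRep]
        exact congrArg (fun a : Additive Qbarˣ => ((Additive.toMul a : Qbarˣ) : Qbar)) hcn)
  have hβ0 : β ≠ 0 := by
    rintro rfl
    have h0 : ∏ i ∈ Finset.range p, (σ ^ i) (0 : Qbar) = 0 :=
      Finset.prod_eq_zero (Finset.mem_range.2 hp.pos) (map_zero _)
    rw [h0] at hprod
    exact (Additive.toMul b : Qbarˣ).ne_zero hprod.symm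
  have hc : ∀ w ∈ kerOf V x, multRep w (Additive.ofMul (Units.mk0 β hβ0))
      = Additive.ofMul (Units.mk0 β hβ0) := multRep_fixed_iff.2 hβ
  have hnorm : normOf multRep p σ (Additive.ofMul (Units.mk0 β hβ0)) = b := by
    apply Additive.toMul.injective
    apply Units.ext
    rw [normOf, toMul_sum_multRep]
    exact hprod
  rw [← hnorm]
  exact K.theta_norm_mem_B2 hx hσ hσ1 hc

/-- **(HP)** -/
theorem hpStatement (hp2 : p ≠ 2) : HPStatement p := by
  intro V hV z hz hloc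
  refine tower_principle (G1_isOpen p) (G1_index p) hz ?_
  intro V₁ hV₁ hopen x hx hne hker
  obtain ⟨U, hU, hUV⟩ := hopen
  have hV₁open : Lall.IsOpen V₁ := isOpen_of_le (isOpen_inf hV ⟨U, hU, le_rfl⟩) hUV
  refine hp_step hp2 hV₁open (hV₁.trans inf_le_right) hx hne
    (Z2_le_of_le (hV₁.trans inf_le_left) hz) (fun 𝒜 h𝒜 => ?_) hker
  exact B2_le_of_le (inf_le_inf_right _ (hV₁.trans inf_le_left)) (hloc 𝒜 h𝒜)

end Fermat.Agent.PT

end
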